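import Fermat.Statements.S02

/-!
# S02

A solution of `aᵖ + bᵖ = cᵖ` in nonzero integers, `p ≥ 5` prime, yields a Frey package.
Proved here: divide by the gcd, then permute and change signs to normalise.
-/

set_option autoImplicit false
open FreyPackage

namespace Fermat.Agent.S02

theorem exists_freyPackage_of_coprime (a b c : ℤ) (ha : a ≠ 0) (hb : b ≠ 0) (hc : c ≠ 0) (p : ℕ)
    (pp : p.Prime) (hp5 : 5 ≤ p) (H : a ^ p + b ^ p = c ^ p) (hg : gcd a b = 1)
    (hb2 : (b : ZMod 2) = 0) : Nonempty FreyPackage := by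
  have hodd : Odd p := pp.odd_of_ne_two (by omega)
  have ha2 : ¬ (2 : ℤ) ∣ a := by
    intro h
    have h2 := dvd_gcd h ((ZMod.intCast_zmod_eq_zero_iff_dvd b 2).1 hb2)
    rw [hg] at h2
    norm_num at h2
  have ha4 : a % 4 = 1 ∨ a % 4 = 3 := by omega
  rcases ha4 with h1 | h3
  · refine ⟨⟨-a, -b, -c, neg_ne_zero.2 ha, neg_ne_zero.2 hb, neg_ne_zero.2 hc, p, pp, hp5,
      ?_, ?_, ?_, ?_⟩⟩
    · rw [hodd.neg_pow, hodd.neg_pow, hodd.neg_pow, ← H]; ring
    · rw [← Int.coe_gcd, Int.neg_gcd, Int.gcd_neg, Int.coe_gcd, hg]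
    · have : ((-a : ℤ) : ZMod 4) = ((3 : ℤ) : ZMod 4) :=
        (ZMod.intCast_eq_intCast_iff' (-a) 3 4).2 (by push_cast; omega)
      simpa using this
    · simp [hb2]
  · refine ⟨⟨a, b, c, ha, hb, hc, p, pp, hp5, H, hg, ?_, hb2⟩⟩
    have : ((a : ℤ) : ZMod 4) = ((3 : ℤ) : ZMod 4) :=
      (ZMod.intCast_eq_intCast_iff' a 3 4).2 (by push_cast; omega)
    simpa using this

theorem result (a b c : ℤ) (ha : a ≠ 0) (hb : b ≠ 0) (hc : c ≠ 0) (p : ℕ) (pp : p.Prime) (hp5 : 5 ≤ p) (H : a ^ p + b ^ p = c ^ p) : Nonempty FreyPackage := by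
  have hodd : Odd p := pp.odd_of_ne_two (by omega)
  obtain ⟨a', b', ha', hb', hg⟩ : ∃ a' b' : ℤ, a = gcd a b * a' ∧ b = gcd a b * b' ∧ gcd a' b' = 1 := by
    obtain ⟨a', b', ha', hb', hu⟩ := extract_gcd a b
    refine ⟨a', b', ha', hb', ?_⟩
    have := normalize_gcd a' b'
    rw [← this, normalize_eq_one]
    exact hu
  have hd : gcd a b ≠ 0 := fun h => ha (by rw [ha', h, zero_mul])
  have hdc : gcd a b ∣ c := by
    rw [← Int.pow_dvd_pow_iff (show p ≠ 0 by omega), ← H]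
    exact dvd_add (pow_dvd_pow_of_dvd (gcd_dvd_left a b) p) (pow_dvd_pow_of_dvd (gcd_dvd_right a b) p)
  obtain ⟨c', hc'⟩ := hdc
  have H' : a' ^ p + b' ^ p = c' ^ p := by
    apply mul_left_cancel₀ (pow_ne_zero p hd)
    rw [mul_add, ← mul_pow, ← mul_pow, ← mul_pow, ← ha', ← hb', ← hc', H]
  have ha0 : a' ≠ 0 := fun h => ha (by rw [ha', h, mul_zero])
  have hb0 : b' ≠ 0 := fun h => hb (by rw [hb', h, mul_zero])
  have hc0 : c' ≠ 0 := fun h => hc (by rw [hc', h, mul_zero])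
  by_cases h1 : (b' : ZMod 2) = 0
  · exact exists_freyPackage_of_coprime a' b' c' ha0 hb0 hc0 p pp hp5 H' hg h1
  by_cases h2 : (a' : ZMod 2) = 0
  · exact exists_freyPackage_of_coprime b' a' c' hb0 ha0 hc0 p pp hp5
      (by rw [add_comm]; exact H') (by rw [gcd_comm]; exact hg) h2
  have h3 : (c' : ZMod 2) = 0 := by
    have := congrArg (Int.cast : ℤ → ZMod 2) H'
    push_cast at this
    have key : ∀ x : ZMod 2, x ≠ 0 → x = 1 := by decide
    rw [key _ h1, key _ h2, one_pow] at this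
    by_contra h
    rw [key _ h, one_pow] at this
    revert this
    decide
  refine exists_freyPackage_of_coprime a' (-c') (-b') ha0 (neg_ne_zero.2 hc0) (neg_ne_zero.2 hb0)
    p pp hp5 ?_ ?_ ?_
  · rw [hodd.neg_pow, hodd.neg_pow, ← H']; ring
  · rw [FreyPackage.gcdab_eq_gcdac (by omega) H'] at hg
    rw [← Int.coe_gcd, Int.gcd_neg, Int.coe_gcd, hg]
  · simp [h3]

end Fermat.Agent.S02
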