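import Fermat.Statements.S07
import Fermat.Prelude.Thm_ModularForm_sturm_bound_Gamma0
import Fermat.Prelude.Thm_CongruenceSubgroup_one_mem_strictPeriods_Gamma0
import Mathlib

/-!
# S07

Weight 2 cusp forms on `Γ₀(2)` vanish. From the Sturm bound of the Prelude, with the index
bound proved here.
-/

set_option autoImplicit false
open WeierstrassCurve WeierstrassCurve.Affine WeierstrassCurve.Affine.Point
open CuspForm ModularFormClass UpperHalfPlane
open ModularForm

namespace Fermat.Agent.S07

open scoped MatrixGroups in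
theorem index_Gamma0_two_le : (CongruenceSubgroup.Gamma0 2).index ≤ 4 := by
  classical
  let φ : SL(2, ℤ) ⧸ CongruenceSubgroup.Gamma0 2 → ZMod 2 × ZMod 2 := fun q =>
    let g := q.out
    ((g 0 0 : ℤ), (g 1 0 : ℤ))
  have hφ : Function.Injective φ := by
    intro a b h
    rw [← Quotient.out_eq a, ← Quotient.out_eq b]
    apply QuotientGroup.eq.2
    rw [CongruenceSubgroup.Gamma0_mem]
    simp only [φ, Prod.mk.injEq] at h
    obtain ⟨h0, h1⟩ := h
    have : ((a.out⁻¹ * b.out : SL(2, ℤ)) 1 0 : ℤ) = -(a.out 1 0) * (b.out 0 0) + (a.out 0 0) * (b.out 1 0) := by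
      simp [Matrix.SpecialLinearGroup.SL2_inv_expl, Matrix.mul_apply, Fin.sum_univ_two]
    rw [this]; push_cast; rw [h0, h1]; ring
  have : Finite (SL(2, ℤ) ⧸ CongruenceSubgroup.Gamma0 2) := Finite.of_injective φ hφ
  have := Nat.card_le_card_of_injective φ hφ
  simpa [Subgroup.index, Nat.card_prod] using this

theorem result (f : CuspForm (CongruenceSubgroup.Gamma0 2) 2) : f = 0 := by
  let g : ModularForm (CongruenceSubgroup.Gamma0 2) 2 :=
    { toFun := f
      slash_action_eq' := f.slash_action_eq'
      holo' := f.holo'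
      bdd_at_cusps' := fun hc γ hγ => (f.zero_at_cusps' hc γ hγ).boundedAtFilter }
  have hg : g = 0 := by
    refine ModularForm.sturm_bound_Gamma0 2 g ?_
    intro n hn
    have hi := index_Gamma0_two_le
    have hn0 : n = 0 := by omega
    subst hn0
    exact CuspFormClass.qExpansion_coeff_zero f one_pos (CongruenceSubgroup.one_mem_strictPeriods_Gamma0 2)
  ext z
  exact congrArg (fun h : ModularForm (CongruenceSubgroup.Gamma0 2) 2 => h z) hg

end Fermat.Agent.S07
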