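import Fermat.Statements.S10
import Fermat.Agent.Regular.Main
import Fermat.Agent.RegularInputs.Inputs

/-!
# S10

No Galois-stable cofixed line for `p = 5, 7, 13`, as there is no Frey package with these
exponents: `Regular.no_freyPackage` (Kummer's descent, inputs in `RegularInputs`).
-/

set_option autoImplicit false
open WeierstrassCurve WeierstrassCurve.Affine WeierstrassCurve.Affine.Point
open CuspForm ModularFormClass UpperHalfPlane
open FreyPackage

namespace Fermat.Agent.S10

theorem result (P : FreyPackage) (hp : P.p = 5 ∨ P.p = 7 ∨ P.p = 13) : ¬ HasGaloisStableCofixedLine (K := AlgebraicClosure ℚ) ℚ P.freyCurve P.p := by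
  intro _
  have : Fact (Nat.Prime 11) := ⟨by norm_num⟩
  have : Fact (Nat.Prime 29) := ⟨by norm_num⟩
  have : Fact (Nat.Prime 53) := ⟨by norm_num⟩
  rcases hp with h | h | h
  · exact FermatAgent.Regular.no_freyPackage P FermatAgent.Regular.auxPrime_five
      FermatAgent.RegularInputs.regularInputs_five h
  · exact FermatAgent.Regular.no_freyPackage P FermatAgent.Regular.auxPrime_seven
      FermatAgent.RegularInputs.regularInputs_seven h
  · exact FermatAgent.Regular.no_freyPackage P FermatAgent.Regular.auxPrime_thirteen
      FermatAgent.RegularInputs.regularInputs_thirteen h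

end Fermat.Agent.S10
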