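import Fermat.Statements.S11
import Fermat.Agent.Regular.Main
import Fermat.Agent.RegularInputs.Inputs

/-!
# S11

No Galois-stable cofixed line for `p = 11`, as there is no Frey package with this exponent:
`Regular.no_freyPackage` (Kummer's descent, inputs in `RegularInputs`).
-/

set_option autoImplicit false
open WeierstrassCurve WeierstrassCurve.Affine WeierstrassCurve.Affine.Point
open CuspForm ModularFormClass UpperHalfPlane
open FreyPackage

namespace Fermat.Agent.S11

theorem result (P : FreyPackage) (hp : P.p = 11) : ¬ HasGaloisStableCofixedLine (K := AlgebraicClosure ℚ) ℚ P.freyCurve P.p := by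
  intro _
  have : Fact (Nat.Prime 23) := ⟨by norm_num⟩
  exact FermatAgent.Regular.no_freyPackage P FermatAgent.Regular.auxPrime_eleven
    FermatAgent.RegularInputs.regularInputs_eleven hp

end Fermat.Agent.S11
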