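import Fermat.Statements.S12
import Fermat.Agent.S15
import Fermat.Agent.Mazur.S12Reduction

/-!
# S12

No Galois-stable cofixed line for `p ≥ 17`. From `Mazur.no_cofixed_large_of_stepThree` and
Mazur's third step S15.
-/

set_option autoImplicit false
open WeierstrassCurve WeierstrassCurve.Affine WeierstrassCurve.Affine.Point
open CuspForm ModularFormClass UpperHalfPlane
open FreyPackage

namespace Fermat.Agent.S12

theorem result (P : FreyPackage) (hp : 17 ≤ P.p) : ¬ HasGaloisStableCofixedLine (K := AlgebraicClosure ℚ) ℚ P.freyCurve P.p := by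
  exact FermatAgent.Mazur.no_cofixed_large_of_stepThree
    (fun {p} hp hp' W hΔ Q hQfix hQord h2Δ h2c h2 h3Δ h3c h3 {ℓ} =>
      Fermat.Agent.S15.result hp hp' W hΔ Q hQfix hQord h2Δ h2c h2 h3Δ h3c h3 (ℓ := ℓ)) P hp

end Fermat.Agent.S12
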