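import Fermat.Statements.S09
import Fermat.Agent.Wiring.Top
import Fermat.Agent.S10
import Fermat.Agent.S11
import Fermat.Agent.S12
import Fermat.Agent.S13

/-!
# S09

The mod `p` representation of the Frey curve is irreducible. From
`Wiring.irreducible_of_cofixed` and S10, S11, S12, S13.
-/

set_option autoImplicit false
open WeierstrassCurve WeierstrassCurve.Affine WeierstrassCurve.Affine.Point
open CuspForm ModularFormClass UpperHalfPlane
open FreyPackage

namespace Fermat.Agent.S09

theorem result (P : FreyPackage) : GaloisRepIsIrreducible (K := AlgebraicClosure ℚ) ℚ P.freyCurve P.p := by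
  exact FermatAgent.Wiring.irreducible_of_cofixed Fermat.Agent.S10.result Fermat.Agent.S11.result
    Fermat.Agent.S12.result Fermat.Agent.S13.result P

end Fermat.Agent.S09
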