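import Fermat.Statements.S03
import Fermat.Agent.Wiring.Final.Main
import Fermat.Agent.Wiring.Final.Proved

/-!
# S03

No Frey package exists. From `Wiring.Final.noFreyPackage` and the proved lifting inputs.
-/

set_option autoImplicit false
open FreyPackage

namespace Fermat.Agent.S03

theorem result (P : FreyPackage) : False := by
  exact FermatAgent.Wiring.Final.noFreyPackage FermatAgent.Wiring.Final.liftingInputs P

end Fermat.Agent.S03
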