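import Fermat.Statements.S04
import Fermat.Agent.Wiring.Final.Chain
import Fermat.Agent.Wiring.Final.Proved

/-!
# S04

The Frey curve is modular. From `Wiring.Final.freyModular`: semistable curves are modular.
-/

set_option autoImplicit false
open WeierstrassCurve WeierstrassCurve.Affine WeierstrassCurve.Affine.Point
open CuspForm ModularFormClass UpperHalfPlane
open FreyPackage

namespace Fermat.Agent.S04

theorem result (P : FreyPackage) : P.freyCurve.IsModular := by
  exact FermatAgent.Wiring.Final.freyModular FermatAgent.Wiring.Final.liftingInputs P

end Fermat.Agent.S04
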