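import Fermat.Statements.S20
import Fermat.Agent.ModCurve.Forms.Genus

/-!
# S20

`dim S₂(Γ₀(N))` is the genus of `X₀(N)`. From `ModCurve.Forms.finrank_cuspForm_two`.
-/

set_option autoImplicit false
open CuspForm

namespace Fermat.Agent.S20

theorem result (N : ℕ) [NeZero N] :
    (Module.finrank ℂ (CuspForm (CongruenceSubgroup.Gamma0 N) 2) : ℚ) = ModularCurve.genusFormula N := by
  exact FermatAgent.ModCurve.Forms.finrank_cuspForm_two N

end Fermat.Agent.S20
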