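import Fermat.Statements.S21
import Fermat.Agent.ModCurve.Forms.Genus

/-!
# S21

Eichler–Shimura: the period map is injective with image the parabolic homomorphisms. From
`ModCurve.Forms.periodHomPair_injective` and `ModCurve.Forms.range_periodHomPair`.
-/

set_option autoImplicit false
open ModularCurve

namespace Fermat.Agent.S21

theorem result (N : ℕ) [NeZero N] :
    Function.Injective (ModularCurve.periodHomPair N)
      ∧ LinearMap.range (ModularCurve.periodHomPair N)
          = ModularCurve.Period.parabolicHoms ℂ (CongruenceSubgroup.Gamma0 N) ℂ := by
  exact ⟨FermatAgent.ModCurve.Forms.periodHomPair_injective N,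
    FermatAgent.ModCurve.Forms.range_periodHomPair N⟩

end Fermat.Agent.S21
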