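import Fermat.Statements.S24
import Fermat.Agent.ModCurve.Points.GenusBar

/-!
# S24

The function field of `X₀(N)` over `ℚ̄` has the classical genus. From
`ModCurve.Points.genusFF_bar` and `Curve.Diff.genus_eq_genusFF`.
-/

set_option autoImplicit false
open ModularCurve

namespace Fermat.Agent.S24

theorem result (N : ℕ) [NeZero N]
    [AlgebraicCurve.HasCanonicalDivisor (K := AlgebraicClosure ℚ) (F := ↥(ModularCurve.modularFunctionFieldBar N))] :
    (AlgebraicCurve.genus (AlgebraicClosure ℚ) ↥(ModularCurve.modularFunctionFieldBar N) : ℚ)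
      = ModularCurve.genusFormula N := by
  rw [FermatAgent.Curve.Diff.genus_eq_genusFF, FermatAgent.ModCurve.Points.genusFF_bar]

end Fermat.Agent.S24
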