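import Fermat.Statements.S26
import Fermat.Agent.AbVar.Torsion
import Fermat.Agent.AbVar.Engine.Main

/-!
# S26

An abelian scheme of dimension `g` over an algebraically closed field has `n ^ (2 g)` points
killed by `n`, `n` invertible. From `AbVar.AV.natCard_torsion_eq_of_degreeCube` and the theorem
of the cube `AbVar.Engine.degreeCube`.
-/

set_option autoImplicit false
set_option autoImplicit false
open CategoryTheory CategoryTheory.Limits AlgebraicGeometry NeronModelInfra GoodReductionJacobian
universe u
open GoodReductionJacobian GoodReductionJacobian.RelativeGroupLaw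

namespace Fermat.Agent.S26

theorem result
    (K : Type u) [Field K] [IsAlgClosed K] {A : Scheme.{u}} (f : A ⟶ Spec (CommRingCat.of K))
    (L : RelativeGroupLaw K f) (hc : L.IsCommutative) (hA : AbelianSchemePropertyBundle K f)
    (g : ℕ) [SmoothOfRelativeDimension g f] (n : ℕ) (hn : (n : K) ≠ 0) :
    Nat.card {x : SchemeHomOver (𝟙 (Spec (CommRingCat.of K))) f //
        L.IsTorsionPoint (𝟙 (Spec (CommRingCat.of K))) n x} = n ^ (2 * g) := by
  exact FermatAgent.AbVar.AV.natCard_torsion_eq_of_degreeCube
    ({ carrier := A, str := f, law := L, comm := hc, bundle := hA, dim := g,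
       smoothDim := inferInstance } : FermatAgent.AbVar.AV K)
    (FermatAgent.AbVar.Engine.degreeCube _) hn

end Fermat.Agent.S26
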