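import Fermat.Statements.S27
import Fermat.Agent.Torsion27.Final

/-!
# S27

A curve of genus `g` in characteristic zero has `ℓ ^ (2 g k)` divisor classes of degree zero
killed by `ℓ ^ k`. From `Torsion27.natCard_torsion_pow`.
-/

set_option autoImplicit false
set_option autoImplicit false
open AlgebraicCurve
open AlgebraicCurve AlgebraicCurve.Pic0

namespace Fermat.Agent.S27

theorem result
    (K F : Type*) [Field K] [Field F] [Algebra K F] [IsAlgClosed K] [CharZero K]
    [IsCurveOver K F] [Algebra.EssFiniteType K F]
    (ℓ : ℕ) [Fact ℓ.Prime] (k : ℕ) :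
    Nat.card (Pic0.torsion K F (ℓ ^ k)) = ℓ ^ (2 * genusFF K F * k) := by
  have := FermatAgent.Curve.isFunctionField1_of_isCurveOver (K := K) (F := F)
  exact FermatAgent.Torsion27.natCard_torsion_pow ℓ k

end Fermat.Agent.S27
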