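import Fermat.Statements.S28
import Fermat.Agent.Igusa.SpecialFibre
import Fermat.Agent.Igusa.FibreGlue

/-!
# S28

Igusa: the fibres of the model of `X₀(N)` in characteristic `ℓ ∤ N` are integral. From
`Igusa.isIntegral_fibre_of_two_charts` and the domain statements for the two charts.
-/

set_option autoImplicit false
open AlgebraicGeometry CategoryTheory CategoryTheory.Limits ModularCurve ModularCurve.IgusaScheme
noncomputable section
set_option autoImplicit false
open ModularCurve ModularCurve.IgusaScheme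

namespace Fermat.Agent.S28

theorem result
    (N : ℕ) [NeZero N] (ℓ : ℕ) [Fact ℓ.Prime] (hℓN : ¬ ℓ ∣ N)
    (K : Type) [Field K] [CharP K ℓ] [Algebra ↥(GaloisRep.ratLocalizedAt ℓ) K] :
    IsIntegral ↑(pullback (igusaTo N ℓ)
      (Spec.map (CommRingCat.ofHom (algebraMap ↥(GaloisRep.ratLocalizedAt ℓ) K)))) := by
  have := FermatAgent.Igusa.isDomain_chartFin_tensor (ℓ := ℓ) (K := K) N hℓN
  have := FermatAgent.Igusa.isDomain_chartInf_tensor (ℓ := ℓ) (K := K) N hℓN
  have := FermatAgent.Igusa.nontrivial_chartMid_tensor (ℓ := ℓ) (K := K) N hℓN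
  refine FermatAgent.Igusa.isIntegral_fibre_of_two_charts K (igusaTo N ℓ) (chartAlgFin N ℓ)
    (chartAlgInf N ℓ) (chartAlgMid N ℓ) (ιFin N ℓ) (ιInf N ℓ) (ιFin_igusaTo N ℓ)
    (ιInf_igusaTo N ℓ) (fFin N ℓ) (fInf N ℓ) (glue_condition N ℓ) ?_
    (mem_range_ιFin_or_mem_range_ιInf N ℓ)
  rw [ιFin_igusaTo, ← Spec.map_comp, ← CommRingCat.ofHom_comp]
  exact congrArg (fun f => Spec.map (CommRingCat.ofHom f))
    (RingHom.ext fun a => (inclFin N ℓ).commutes a)

end Fermat.Agent.S28
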