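import Fermat.Statements.S38
import Fermat.Agent.Wiring.General.Lowering
import Fermat.Agent.Wiring.General.Image
import Fermat.Agent.Wiring.Final.LoweringProved

/-!
# S38

Ribet: a prime `q ≠ p` of a squarefree level at which `E[p]` is unramified leaves the level.
From `Wiring.General.isResiduallyModularOfLevel_div` and `Wiring.Final.loweringInputs`.
-/

set_option autoImplicit false
open WeierstrassCurve WeierstrassCurve.Affine WeierstrassCurve.Affine.Point
open WeierstrassCurve

namespace Fermat.Agent.S38

set_option linter.unusedVariables false in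
theorem result
    (p : ℕ) [Fact p.Prime] (_hp2 : p ≠ 2) (W : WeierstrassCurve ℤ) (_hΔ : W.Δ ≠ 0)
    (_hW : W.IsSemistableModel)
    (hcard₁ : Nat.card (Submodule.torsionBy ℤ
      ((W.map (Int.castRingHom ℚ))⁄(AlgebraicClosure ℚ)).Point p) = p ^ 2)
    (hker : GaloisFactorsThroughFiniteLevel
      (WeierstrassCurve.Affine.Point.galoisRepModuleEnd (K := AlgebraicClosure ℚ) ℚ
        (W.map (Int.castRingHom ℚ)) p))
    (_hirr : W.ModRepIsIrreducible p) (M q : ℕ) (hq : q.Prime) (hqp : q ≠ p)
    (hqM : q ∣ M) (hq2 : ¬ q ^ 2 ∣ M) (hM : Squarefree M)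
    (hunr : ((W.map (Int.castRingHom ℚ)).residualGaloisRepOf p hcard₁ hker).IsUnramifiedAt q)
    (hres : W.IsResiduallyModularOfLevel p M) :
    W.IsResiduallyModularOfLevel p (M / q) :=
  FermatAgent.Wiring.General.isResiduallyModularOfLevel_div
    FermatAgent.Wiring.Final.loweringInputs _hp2 _hΔ _hW _hirr
    (fun _ => FermatAgent.Wiring.General.fullImage_of_irreducible W p _hp2 _hW _hirr)
    hM hq hqp hqM (FermatAgent.Wiring.General.unramifiedMod_of_isUnramifiedAt hunr) hres

end Fermat.Agent.S38
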