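import Fermat.Statements.S39
import Fermat.Agent.MazurPrinciple.General.Final

/-!
# S39

Mazur's principle: `p` exactly dividing the level leaves it when `E[p]` is peu ramifiée. From
`MazurPrinciple.General.residuallyModular_div`.
-/

set_option autoImplicit false
open WeierstrassCurve

namespace Fermat.Agent.S39

theorem result
    (W : WeierstrassCurve ℤ) (hΔ : W.Δ ≠ 0)
    {p : ℕ} (hp : p.Prime) (hp2 : p ≠ 2)
    (hsemi : (p : ℤ) ∣ W.Δ → ¬ (p : ℤ) ∣ W.c₄)
    (hirr : W.ModRepIsIrreducible p)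
    (hfin : (W.map (Int.castRingHom ℚ)).IsPeuRamifieeAt p p)
    {M : ℕ} (hM : 0 < M) (hpM : p ∣ M) (hp2M : ¬ p ^ 2 ∣ M)
    (hmod : W.IsResiduallyModularOfLevel p M) :
    W.IsResiduallyModularOfLevel p (M / p) := by
  have : Fact p.Prime := ⟨hp⟩
  exact FermatAgent.MazurPrinciple.General.residuallyModular_div W hΔ hp2 hsemi hirr hfin hM hpM
    hp2M hmod

end Fermat.Agent.S39
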