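import Fermat.Statements.S46
import Fermat.Agent.Wiring.WeightOne.Main
import Fermat.Agent.Wiring.Final.Proved

/-!
# S46

A weight-one type eigensystem with character `χ₋₃` congruent mod 3 to a semistable curve with
irreducible `E[3]`, deduced from its modularity. From
`Wiring.WeightOne.weightOneEigensystem` and the proved lifting inputs.
-/

set_option autoImplicit false
open WeierstrassCurve CuspForm EisensteinWeightOne FormalHecke
open FLT FLT.No2BridgeWiring

namespace Fermat.Agent.S46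

theorem result :
    ∀ W : WeierstrassCurve ℤ, W.Δ ≠ 0 → W.IsSemistableModel → W.ModRepIsIrreducible 3 →
      ∃ (N : ℕ) (_ : NeZero N) (a : ℕ → ℤ),
        CuspForm.HasIntegralBasis N ∧
        FormalHecke.IsEigensystem
          (fun ℓ => if ℓ ∣ N then 0 else ((chiNegThree ℓ : ℤ) : ℤ)) a ∧
        CuspForm.IsLatticeRealized N a ∧
        (∀ q : ℕ, q.Prime → q ≠ 3 → ¬ q ^ 3 ∣ N) ∧
        ∀ ℓ : ℕ, ℓ.Prime → W.IsGoodPrimeFor ℓ → ¬ ℓ ∣ N → ℓ ≠ 3 →
          (3 : ℤ) ∣ (a ℓ - W.apOfModel ℓ) := by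
  exact fun W hΔ hW _ => FermatAgent.Wiring.WeightOne.weightOneEigensystem
    FermatAgent.Wiring.Final.liftingInputs W hΔ hW

end Fermat.Agent.S46
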