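import Fermat.Statements.S50
import Fermat.Agent.Wiring.Final.Chain
import Fermat.Agent.Wiring.Final.Proved

/-!
# S50

Residual modularity at 3 of a semistable curve with irreducible `E[3]`. From
`Wiring.Final.residualModularityThree` and the proved lifting inputs.
-/

set_option autoImplicit false
open WeierstrassCurve WeierstrassCurve.Affine WeierstrassCurve.Affine.Point
open scoped WeierstrassCurve.Affine
open WeierstrassCurve

namespace Fermat.Agent.S50

theorem result
    (W : WeierstrassCurve ℤ) (hΔ : W.Δ ≠ 0) (hW : W.IsSemistableModel)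
    (h3 : W.ModRepIsIrreducible 3) :
    ∃ M : ℕ, 0 < M ∧ W.IsResiduallyModularOfLevel 3 M ∧
      (∀ q : ℕ, q.Prime → q ≠ 3 → ¬ q ^ 3 ∣ M) ∧
      (3 ^ 2 ∣ M →
        ∀ A : ValuationSubring (AlgebraicClosure ℚ), A.LiesOverPrime 3 →
          ∀ x : Submodule.torsionBy ℤ
              ((W.map (Int.castRingHom ℚ))⁄(AlgebraicClosure ℚ)).Point (3 : ℕ),
            (∀ σ ∈ A.inertiaSubgroupIn ℚ, σ • x = x) → x = 0) := by
  exact FermatAgent.Wiring.Final.residualModularityThree FermatAgent.Wiring.Final.liftingInputs W hΔ hW h3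

end Fermat.Agent.S50
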