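import Fermat.Statements.S52
import Fermat.Agent.Switch.Model

/-!
# S52

The 3–5 switch: a semistable curve with irreducible `E[5]` is congruent mod 5 to one with
irreducible `E[3]`. The curve itself if its `E[3]` is irreducible, otherwise from
`Switch.exists_switch`.
-/

set_option autoImplicit false
open WeierstrassCurve WeierstrassCurve.Affine WeierstrassCurve.Affine.Point
open CuspForm ModularFormClass UpperHalfPlane
open WeierstrassCurve

namespace Fermat.Agent.S52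

set_option linter.unusedVariables false in
theorem result (W : WeierstrassCurve ℤ) (hΔ : W.Δ ≠ 0) (hW : W.IsSemistableModel) (h5 : W.ModRepIsIrreducible 5) : ∃ W' : WeierstrassCurve ℤ, W'.Δ ≠ 0 ∧ W'.IsSemistableModel ∧ W'.ModRepIsIrreducible 3 ∧ ∀ ℓ : ℕ, ℓ.Prime → W.IsGoodPrimeFor ℓ → W'.IsGoodPrimeFor ℓ → ℓ ≠ 5 → (5 : ℤ) ∣ (W'.apOfModel ℓ - W.apOfModel ℓ) := by
  by_cases h3 : W.ModRepIsIrreducible 3
  · exact ⟨W, hΔ, hW, h3, fun ℓ _ _ _ _ => by rw [sub_self]; exact dvd_zero _⟩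
  · obtain ⟨W', h₁, h₂, h₃, -, h₄⟩ :=
      FermatAgent.Switch.exists_switch W hΔ hW h3 1 Nat.one_pos
    exact ⟨W', h₁, h₂, h₃, h₄⟩

end Fermat.Agent.S52
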