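import Fermat.Statements.S54
import Fermat.Agent.RT.Frobenius

/-!
# S54

A universal deformation ring surjects onto the coefficient ring of a Hecke–Galois datum.
Proved here from universality, with Frobenius elements from `RT.exists_place_isFrobeniusAt`.
-/

set_option autoImplicit false
open GaloisRep GaloisRep.DeformationRingData
open scoped TensorProduct

namespace Fermat.Agent.S54

theorem trace_baseChangeAlong {A B : Type} [CommRing A] [IsLocalRing A] [CommRing B]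
    [IsLocalRing B] (φ : A →+* B) (hφ : IsLocalHom φ) (ρ : GaloisRepAdic A)
    (σ : AlgebraicClosure ℚ ≃ₐ[ℚ] AlgebraicClosure ℚ) :
    (ρ.baseChangeAlong φ hφ).trace σ = φ (ρ.trace σ) :=
  letI : Algebra A B := φ.toAlgebra
  LinearMap.trace_baseChange (ρ.ρ σ) B

theorem trace_eq_of_isEquiv {A : Type} [CommRing A] [IsLocalRing A] {ρ₁ ρ₂ : GaloisRepAdic A}
    (h : ρ₁.IsEquiv ρ₂) (σ : AlgebraicClosure ℚ ≃ₐ[ℚ] AlgebraicClosure ℚ) :
    ρ₁.trace σ = ρ₂.trace σ := by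
  obtain ⟨e⟩ := h
  have hconj : e.toLinearEquiv.conj (ρ₁.ρ σ) = ρ₂.ρ σ := by
    ext y
    rw [LinearEquiv.conj_apply_apply, e.map_apply, LinearEquiv.apply_symm_apply]
  rw [GaloisRepAdic.trace, GaloisRepAdic.trace, ← hconj, LinearMap.trace_conj']

theorem trace_of_charpoly {A : Type} [CommRing A] [IsLocalRing A] (ρ : GaloisRepAdic A)
    {σ : AlgebraicClosure ℚ ≃ₐ[ℚ] AlgebraicClosure ℚ} {t d : A}
    (h : LinearMap.charpoly (ρ.ρ σ) = Polynomial.X ^ 2 - Polynomial.C t * Polynomial.X +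
      Polynomial.C d) : ρ.trace σ = t := by
  let b := Module.Free.chooseBasis A ρ.V
  have hcard : Fintype.card (Module.Free.ChooseBasisIndex A ρ.V) = 2 := by
    rw [← Module.finrank_eq_card_basis b, ρ.finrank_eq]
  have : Nonempty (Module.Free.ChooseBasisIndex A ρ.V) :=
    Fintype.card_pos_iff.mp (by omega)
  rw [GaloisRepAdic.trace, LinearMap.trace_eq_matrix_trace A b,
    Matrix.trace_eq_neg_charpoly_coeff, LinearMap.charpoly_toMatrix, h, hcard]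
  simp [Polynomial.coeff_X_pow]

theorem result {𝒪 : Type} [CommRing 𝒪] [IsDomain 𝒪] [IsDiscreteValuationRing 𝒪] [IsAdicComplete (IsLocalRing.maximalIdeal 𝒪) 𝒪] {ρbar : ResidualGaloisRep (IsLocalRing.ResidueField 𝒪)} {𝒟 : ∀ ⦃A : Type⦄ [CommRing A] [IsLocalRing A] [Algebra 𝒪 A], GaloisRepAdic A → Prop} (D : GaloisRep.DeformationRingData 𝒪 ρbar 𝒟) {N : ℕ} [NeZero N] {S : Set ℕ} {θ : CuspForm.heckeAlgebra N 2 S →+* IsLocalRing.ResidueField 𝒪} {T : Type} [CommRing T] [IsLocalRing T] [IsNoetherianRing T] [IsAdicComplete (IsLocalRing.maximalIdeal T) T] [Algebra 𝒪 T] [IsLocalHom (algebraMap 𝒪 T)] [Module.Finite 𝒪 T] [Module.Free 𝒪 T] (H : CuspForm.HeckeGaloisRepDatum N S 𝒪 θ T) (hS : ∀ q : ℕ, q.Prime → q ∣ N → q ∈ S) (h𝒟 : 𝒟 H.ρ) (hres : H.ρ.residual.IsEquiv (ρbar.baseChangeAlong (IsLocalRing.ResidueField.map (algebraMap 𝒪 T)))) : ∃ φ : D.R →ₐ[𝒪] T, Function.Surjective φ ∧ ∃ hφ : IsLocalHom (φ : D.R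 →+* T), (D.ρ.baseChangeAlong (φ : D.R →+* T) hφ).IsEquiv H.ρ := by
  obtain ⟨φ, ⟨hφ, hequiv⟩, -⟩ := D.universal T H.residue_surjective H.ρ h𝒟 hres
  refine ⟨φ, ?_, hφ, hequiv⟩
  rw [← AlgHom.range_eq_top, eq_top_iff, ← H.adjoin_range_π]
  refine Algebra.adjoin_le ?_
  rintro _ ⟨⟨t, ht⟩, rfl⟩
  show H.π ⟨t, ht⟩ ∈ φ.range
  induction ht using Algebra.adjoin_induction with
  | mem t ht =>
    rcases ht with ⟨ℓ, hℓ, hℓN, hℓS, rfl⟩ | ⟨q, hqN, hq, hqS, rfl⟩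
    · obtain ⟨A, σ, hA, hσ⟩ := FermatAgent.RT.exists_place_isFrobeniusAt hℓ
      have h1 := trace_of_charpoly H.ρ (H.charpoly_frob ℓ hℓ hℓN hℓS A hA σ hσ)
      rw [← trace_eq_of_isEquiv hequiv, trace_baseChangeAlong] at h1
      exact ⟨_, h1⟩
    · exact absurd (hS q hq hqN) hqS
  | algebraMap r =>
    have : H.π ⟨_, Subalgebra.algebraMap_mem _ r⟩ = (r : T) := by
      rw [show (⟨_, Subalgebra.algebraMap_mem _ r⟩ : CuspForm.heckeAlgebra N 2 S) =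
        algebraMap ℤ _ r from rfl, eq_intCast, map_intCast]
    rw [this]
    exact intCast_mem _ r
  | add x y hx hy ihx ihy =>
    rw [show (⟨x + y, _⟩ : CuspForm.heckeAlgebra N 2 S) = ⟨x, hx⟩ + ⟨y, hy⟩ from rfl, map_add]
    exact add_mem ihx ihy
  | mul x y hx hy ihx ihy =>
    rw [show (⟨x * y, _⟩ : CuspForm.heckeAlgebra N 2 S) = ⟨x, hx⟩ * ⟨y, hy⟩ from rfl, map_mul]
    exact mul_mem ihx ihy

end Fermat.Agent.S54
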