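import Fermat.Statements.S57
import Fermat.Agent.RT.MCMFree
import Fermat.Agent.RT.PowerSeries

/-!
# S57

Patching, descent step: at a level with trivial relation ideal `M` is free and faithful over
`R`. Proved here with the commutative algebra of `RT.MCMFree` and `RT.PowerSeries`.
-/

set_option autoImplicit false
open Algebra Algebra.PatchingLevel
open RingTheory.Sequence
open scoped TensorProduct

namespace Fermat.Agent.S57

variable {𝒪 : Type} [CommRing 𝒪] [IsDomain 𝒪] [IsDiscreteValuationRing 𝒪]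
  {r : ℕ} {R : Type} [CommRing R] [Algebra 𝒪 R]
  {M : Type} [AddCommGroup M] [Module R M] [Nontrivial M]

local notation "Λ" => MvPowerSeries (Fin r) 𝒪

/-- A level with trivial relation ideal is free over the power series ring. -/
theorem free_N (L : Algebra.PatchingLevel 𝒪 r R M ⊥) :
    Module.Finite Λ L.N ∧ Module.Free Λ L.N ∧ Nontrivial L.N := by
  have hfin : Module.Finite Λ L.N := by
    refine ⟨Submodule.fg_iff_exists_fin_generating_family.mpr ⟨L.d, L.b, ?_⟩⟩
    rw [_root_.eq_top_iff]
    intro x _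
    obtain ⟨c, rfl⟩ := L.b_span x
    exact Submodule.sum_mem _ fun i _ =>
      Submodule.smul_mem _ _ (Submodule.subset_span ⟨i, rfl⟩)
  have hnt : Nontrivial L.N := L.π_surjective.nontrivial
  refine ⟨hfin, ?_, hnt⟩
  obtain ⟨ϖ, hϖ⟩ := IsDiscreteValuationRing.exists_irreducible 𝒪
  have hmax := (IsDiscreteValuationRing.irreducible_iff_uniformizer ϖ).mp hϖ
  -- coordinates with respect to `b`
  let e₀ : (Fin L.d → Λ) →+ L.N := AddMonoidHom.mk' (fun c => ∑ i, L.φ (c i) • L.b i) (by
    intro x y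
    simp only [Pi.add_apply, map_add, add_smul, Finset.sum_add_distrib])
  have hbij : Function.Bijective e₀ := by
    refine ⟨(injective_iff_map_eq_zero e₀).mpr fun c hc => ?_, fun x => ?_⟩
    · exact funext fun i => Ideal.mem_bot.mp ((L.b_rel c).mp hc i)
    · obtain ⟨c, hc⟩ := L.b_span x
      exact ⟨c, hc.symm⟩
  let e := AddEquiv.ofBijective e₀ hbij
  let rs₀ : List Λ := List.ofFn MvPowerSeries.X ++ [MvPowerSeries.C ϖ]
  have hreg₀ : IsWeaklyRegular (Fin L.d → Λ) rs₀ :=
    (LinearEquiv.isWeaklyRegular_congr (TensorProduct.rid Λ (Fin L.d → Λ)) rs₀).mp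
      ((FermatAgent.RT.isWeaklyRegular_X_uniformiser hϖ.ne_zero).isWeaklyRegular_lTensor (M₂ := Fin L.d → Λ))
  have hregN : IsWeaklyRegular L.N (rs₀.map L.φ) := by
    refine (e.isWeaklyRegular_congr ?_).mp hreg₀
    rw [List.forall₂_map_right_iff, List.forall₂_same]
    intro s _ x
    show e₀ (s • x) = L.φ s • e₀ x
    simp only [e₀, AddMonoidHom.mk'_apply, Pi.smul_apply, smul_eq_mul, map_mul, mul_smul,
      Finset.smul_sum]
  have hmem : ∀ s ∈ rs₀.map L.φ, s ∈ IsLocalRing.maximalIdeal Λ := by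
    intro s hs
    simp only [rs₀, List.map_append, List.mem_append, List.map_ofFn, List.mem_ofFn,
      List.map_cons, List.map_nil, List.mem_singleton] at hs
    rcases hs with ⟨i, rfl⟩ | rfl
    · intro hu
      have h0 := hu.map L.ψ
      rw [Function.comp_apply, L.ψ_φ_X i] at h0
      have : Subsingleton R := isUnit_zero_iff.mp h0 |> subsingleton_of_zero_eq_one
      exact not_subsingleton M (Module.subsingleton R M)
    · have : L.φ (MvPowerSeries.C ϖ) = MvPowerSeries.C ϖ := L.φ.commutes ϖ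
      rw [this, ← FermatAgent.RT.maximalIdeal_eq_span hmax]
      exact Ideal.subset_span ⟨0, rfl⟩
  exact FermatAgent.RT.free_of_isRegular_of_span_eq (r + 1) _
    (FermatAgent.RT.maximalIdeal_eq_span hmax) (rs₀.map L.φ) (by simp [rs₀]) hmem
    (IsRegular.of_isWeaklyRegular_of_mem_maximalIdeal _ hmem hregN)

theorem result
    {𝒪 : Type} [CommRing 𝒪] [IsDomain 𝒪] [IsDiscreteValuationRing 𝒪]
    {r : ℕ} {R : Type} [CommRing R] [Algebra 𝒪 R]
    {M : Type} [AddCommGroup M] [Module R M] [Nontrivial M]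
    (L : Algebra.PatchingLevel 𝒪 r R M ⊥) :
    Module.Free R M ∧ Module.annihilator R M = ⊥ ∧
      RingHom.ker L.ψ = Ideal.span (Set.range fun i : Fin r => L.φ (MvPowerSeries.X i)) := by
  obtain ⟨hfin, hfree, hnt⟩ := free_N L
  let bN := Module.Free.chooseBasis (MvPowerSeries (Fin r) 𝒪) L.N
  set ι := Module.Free.ChooseBasisIndex (MvPowerSeries (Fin r) 𝒪) L.N with hι
  have : Nonempty ι := bN.index_nonempty
  set I := Ideal.span (Set.range fun i : Fin r => L.φ (MvPowerSeries.X i)) with hI
  have hIψ : ∀ f ∈ I, L.ψ f = 0 := fun f hf =>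
    (Ideal.span_le (I := RingHom.ker L.ψ)).mpr
      (by rintro _ ⟨i, rfl⟩; exact L.ψ_φ_X i) hf
  have hcoord : ∀ x : L.N, L.π x = 0 → ∀ j, bN.repr x j ∈ I := by
    intro x hx j
    refine Submodule.smul_induction_on (p := fun y => bN.repr y j ∈ I) ((L.ker_π x).mp hx) ?_ ?_
    · intro a ha y _
      rw [map_smul, Finsupp.smul_apply, smul_eq_mul]
      exact I.mul_mem_right _ ha
    · intro y z hy hz
      rw [map_add, Finsupp.add_apply]
      exact I.add_mem hy hz
  have hli : ∀ f : ι → MvPowerSeries (Fin r) 𝒪,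
      ∑ j, L.ψ (f j) • L.π (bN j) = 0 → ∀ j, f j ∈ I := by
    intro f hf j
    have h0 : L.π (∑ k, f k • bN k) = 0 := by
      rw [map_sum, ← hf]
      exact Finset.sum_congr rfl fun k _ => L.π_smul _ _
    have := hcoord _ h0 j
    rwa [Module.Basis.repr_sum_self] at this
  have hker : ∀ f, L.ψ f = 0 → f ∈ I := by
    intro f hf
    obtain ⟨j⟩ := ‹Nonempty ι›
    exact hli (fun _ => f) (by simp [hf]) j
  have hindep : LinearIndependent R fun j => L.π (bN j) := by
    rw [Fintype.linearIndependent_iff]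
    intro g hg j
    choose f hf using fun k => L.ψ_surjective (g k)
    rw [← hf j]
    exact hIψ _ (hli f (by simpa [hf] using hg) j)
  have hspan : ⊤ ≤ Submodule.span R (Set.range fun j => L.π (bN j)) := by
    intro m _
    obtain ⟨x, rfl⟩ := L.π_surjective m
    rw [← bN.sum_repr x, map_sum]
    refine Submodule.sum_mem _ fun k _ => ?_
    rw [L.π_smul]
    exact Submodule.smul_mem _ _ (Submodule.subset_span ⟨k, rfl⟩)
  refine ⟨Module.Free.of_basis (Module.Basis.mk hindep hspan), ?_, ?_⟩
  · rw [eq_bot_iff]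
    intro a ha
    obtain ⟨j⟩ := ‹Nonempty ι›
    rw [Module.mem_annihilator] at ha
    classical
    have h1 := Fintype.linearIndependent_iff.mp hindep (Pi.single j a)
      (by simpa [Pi.single_apply, ite_smul] using ha (L.π (bN j))) j
    simpa using h1
  · ext f
    exact ⟨hker f, hIψ f⟩

end Fermat.Agent.S57
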