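import Fermat.Statements.S58
import Fermat.Agent.Conductor.Main
import Fermat.Agent.S30
import Fermat.Agent.S35
import Fermat.Agent.S36

/-!
# S58

A semistable modular curve is modular at its conductor level. From
`Conductor.isModularModelOfLevel_conductorLevel` and S30, S35, S36.
-/

set_option autoImplicit false
set_option autoImplicit false
open WeierstrassCurve

namespace Fermat.Agent.S58

theorem result
    (W : WeierstrassCurve ℤ) (hss : W.IsSemistableModel) (N : ℕ)
    (p : ℕ) [Fact p.Prime] (hp2 : p ≠ 2) (hirr : W.ModRepIsIrreducible p)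
    (hp2N : ¬ p ^ 2 ∣ N)
    (hN : W.IsModularModelOfLevel N) (hbad : ∀ ℓ : ℕ, ℓ.Prime → (ℓ : ℤ) ∣ W.Δ → ℓ ∣ N)
    (hN3 : ∀ q : ℕ, q.Prime → ¬ q ^ 3 ∣ N) :
    W.IsModularModelOfLevel W.conductorLevel := by
  exact FermatAgent.Conductor.isModularModelOfLevel_conductorLevel @Fermat.Agent.S35.result
    @Fermat.Agent.S36.result @Fermat.Agent.S30.result W hss N p hp2 hirr hp2N hN hbad hN3

end Fermat.Agent.S58
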