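import Fermat.Statements.S60
import Fermat.Agent.Wiring.Final.Chain
import Fermat.Agent.Wiring.Final.Proved

/-!
# S60

Semistable curves over `ℚ` are modular. From `Wiring.Final.semistableModular` and the proved
lifting inputs.
-/

set_option autoImplicit false
open WeierstrassCurve WeierstrassCurve.Affine WeierstrassCurve.Affine.Point
open CuspForm ModularFormClass UpperHalfPlane
open WeierstrassCurve

namespace Fermat.Agent.S60

theorem result (W : WeierstrassCurve ℤ) (hΔ : W.Δ ≠ 0) (hW : W.IsSemistableModel) : (W.map (Int.castRingHom ℚ)).IsModular := by
  exact FermatAgent.Wiring.Final.semistableModular FermatAgent.Wiring.Final.liftingInputs W hΔ hW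

end Fermat.Agent.S60
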